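import Fermat.Agent.MU.F4.UC.Seq1
import Fermat.Agent.F4.Duality

section MergeWrap_F4_UC_Res -- from F4/UC/Res.lean

/-!
# F4 / UC : restriction of a universal-coefficient datum along a group homomorphism

`D.res r : UCData p (K.res r) (Rep.res r C) (Rep.res r I) (Rep.res r Q)` for `r : H →* G`;
in particular for `r = U.subtype`, `U` a subgroup of `G`.  Smoothness of `I` restricts
(`UC.isSmooth_res`).
-/

set_option autoImplicit false

open CategoryTheory groupCohomology

namespace Fermat.Agent.F4

variable {G : Type} [Group G]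

namespace UCData

variable {p : ℕ} {K : Cx (ZMod p) G} {C I Q : Rep.{0} ℤ G}

/-- Restriction of a universal-coefficient datum along `r : H →* G`. -/
def res {H : Type} [Group H] (r : H →* G) (D : UCData p K C I Q) :
    UCData p (K.res r) (Rep.res r C) (Rep.res r I) (Rep.res r Q) where
  ι := D.ι
  π := D.π
  i0 := D.i0
  i1 := D.i1
  ι_inj := D.ι_inj
  π_surj := D.π_surj
  exact := D.exact
  ι_comm h c := D.ι_comm (r h) c
  π_comm h x := D.π_comm (r h) x
  i0_comm h x := D.i0_comm (r h) x
  i1_comm h x := D.i1_comm (r h) x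
  i0_inj := D.i0_inj
  i1_inj := D.i1_inj
  i0_range := D.i0_range
  i1_range := D.i1_range
  comm := D.comm
  div := D.div

end UCData

namespace UC

/-- Smoothness restricts along a group homomorphism. -/
lemma isSmooth_res {k : Type} [CommRing k] {H : Type} [Group H] (r : H →* G) {𝓤 : Levels G}
    {A : Rep.{0} k G} (hA : IsSmooth 𝓤 A) : IsSmooth (𝓤.comap r) (Rep.res r A) := by
  intro a
  obtain ⟨U, hU, h⟩ := hA a
  exact ⟨U.comap r, ⟨U, hU, rfl⟩, fun g hg => h (r g) hg⟩

end UC

end Fermat.Agent.F4
end MergeWrap_F4_UC_Res
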