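import Fermat.Agent.F4.UC.Defs

section MergeWrap_F4_UC_Seq2 -- from F4/UC/Seq2.lean

/-!
# F4 / UC : the universal-coefficient sequence in degree 2

For a datum `D : UCData p K C I Q` (`K = [I[p] → Q[p]]`, `0 → C → I → Q → 0`, `I` `p`-divisible
and `𝓤`-smooth) we construct additive maps

  `D.α2 hI : H1sm 𝓤 C →+ HH2 𝓤 K`,   `D.β2 hI : HH2 𝓤 K →+ H2sm 𝓤 C`

and prove the exactness of `0 → H¹(C)/p → HH²(K) → H²(C)[p] → 0`: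

* `α2_eq_zero_iff` : `α2 x = 0 ↔ x ∈ p • H¹(C)`;
* `β2_eq_zero_iff` : `β2 y = 0 ↔ y ∈ range α2`;
* `β2_range` : `x ∈ range β2 ↔ p • x = 0`.

The maps are characterised on cocycles by the relations `Rel2α` and `Rel2` (`α2_mk`, `β2_mk`).
-/

set_option autoImplicit false
set_option linter.unusedSectionVars false

open CategoryTheory groupCohomology

namespace Fermat.Agent.F4

namespace UCData

variable {G : Type} [Group G] {p : ℕ} {K : Cx (ZMod p) G} {C I Q : Rep.{0} ℤ G}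
  (D : UCData p K C I Q) (𝓤 : Levels G)

/-- The relation defining `β² : HH²(K) → H²(C)`: lift `b` to a level-constant `y : G → I`;
then `a - δ¹ y` takes values in `C`. -/
def Rel2 (z : T2 K) (w : G × G → C) : Prop :=
  ∃ y : G → I, IsLC₁ 𝓤 y ∧ (∀ g, D.π (y g) = D.i1 (z.2 g)) ∧
    ∀ q, D.ι (w q) = D.i0 (z.1 q) - δ1 I y q

/-- The relation defining `α² : H¹(C) → HH²(K)`: divide `c` by `p` in `I`, `p y = c`;
then `(δ¹ y, π y)` is a cocycle of `K`. -/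
def Rel2α (c : G → C) (z : T2 K) : Prop :=
  ∃ y : G → I, IsLC₁ 𝓤 y ∧ (∀ g, (p : ℤ) • y g = D.ι (c g)) ∧
    (∀ q, D.i0 (z.1 q) = δ1 I y q) ∧ ∀ g, D.i1 (z.2 g) = D.π (y g)

variable {D 𝓤}

lemma δ1_sub_fun (A : Rep.{0} ℤ G) (y₁ y₂ : G → A) (q : G × G) :
    δ1 A (fun g => y₁ g - y₂ g) q = δ1 A y₁ q - δ1 A y₂ q := by
  have : (fun g => y₁ g - y₂ g) = y₁ - y₂ := rfl
  rw [this, map_sub]; rfl

lemma δ1_add_fun (A : Rep.{0} ℤ G) (y₁ y₂ : G → A) (q : G × G) :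
    δ1 A (fun g => y₁ g + y₂ g) q = δ1 A y₁ q + δ1 A y₂ q := by
  have : (fun g => y₁ g + y₂ g) = y₁ + y₂ := rfl
  rw [this, map_add]; rfl

lemma δ1_neg_fun (A : Rep.{0} ℤ G) (y : G → A) (q : G × G) :
    δ1 A (fun g => -y g) q = -δ1 A y q := by
  have : (fun g => -y g) = -y := rfl
  rw [this, map_neg]; rfl

lemma δ1_smul_fun (A : Rep.{0} ℤ G) (n : ℤ) (y : G → A) (q : G × G) :
    δ1 A (fun g => n • y g) q = n • δ1 A y q := by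
  simp only [δ1_apply, smul_add, smul_sub, map_zsmul]

lemma δ1_δ0_apply (A : Rep.{0} ℤ G) (x : A) (q : G × G) :
    δ1 A (fun g => δ0 A x g) q = 0 := by
  have := congrFun (δ1_δ0 A x) q
  exact this

lemma δ2_sub_fun (A : Rep.{0} ℤ G) (y₁ y₂ : G × G → A) (q : G × G × G) :
    δ2 A (fun g => y₁ g - y₂ g) q = δ2 A y₁ q - δ2 A y₂ q := by
  have : (fun g => y₁ g - y₂ g) = y₁ - y₂ := rfl
  rw [this, map_sub]; rfl

lemma δ2_add_fun (A : Rep.{0} ℤ G) (y₁ y₂ : G × G → A) (q : G × G × G) :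
    δ2 A (fun g => y₁ g + y₂ g) q = δ2 A y₁ q + δ2 A y₂ q := by
  have : (fun g => y₁ g + y₂ g) = y₁ + y₂ := rfl
  rw [this, map_add]; rfl

lemma δ2_δ1_apply (A : Rep.{0} ℤ G) (y : G → A) (q : G × G × G) :
    δ2 A (fun g => δ1 A y g) q = 0 := by
  have := congrFun (δ2_δ1 A y) q
  exact this

lemma Rel2.sub {z₁ z₂ : T2 K} {w₁ w₂ : G × G → C} (h₁ : D.Rel2 𝓤 z₁ w₁)
    (h₂ : D.Rel2 𝓤 z₂ w₂) : D.Rel2 𝓤 (z₁ - z₂) (w₁ - w₂) := by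
  obtain ⟨y₁, hy₁, hπ₁, hι₁⟩ := h₁
  obtain ⟨y₂, hy₂, hπ₂, hι₂⟩ := h₂
  refine ⟨fun g => y₁ g - y₂ g, UC.isLC₁_sub hy₁ hy₂, fun g => ?_, fun q => ?_⟩
  · rw [map_sub, hπ₁, hπ₂, Prod.snd_sub, Pi.sub_apply, map_sub]
  · rw [Pi.sub_apply, map_sub, hι₁, hι₂, Prod.fst_sub, Pi.sub_apply, map_sub, δ1_sub_fun]
    abel

lemma Rel2α.sub {c₁ c₂ : G → C} {z₁ z₂ : T2 K} (h₁ : D.Rel2α 𝓤 c₁ z₁)
    (h₂ : D.Rel2α 𝓤 c₂ z₂) : D.Rel2α 𝓤 (c₁ - c₂) (z₁ - z₂) := by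
  obtain ⟨y₁, hy₁, hp₁, ha₁, hb₁⟩ := h₁
  obtain ⟨y₂, hy₂, hp₂, ha₂, hb₂⟩ := h₂
  refine ⟨fun g => y₁ g - y₂ g, UC.isLC₁_sub hy₁ hy₂, fun g => ?_, fun q => ?_, fun g => ?_⟩
  · rw [smul_sub, hp₁, hp₂, Pi.sub_apply, map_sub]
  · rw [Prod.fst_sub, Pi.sub_apply, map_sub, ha₁, ha₂, δ1_sub_fun]
  · rw [Prod.snd_sub, Pi.sub_apply, map_sub, hb₁, hb₂, map_sub]

/-- Existence for `Rel2`. -/
lemma Rel2.exists (D : UCData p K C I Q) (hI : IsSmooth 𝓤 I) {z : T2 K} (hz : z ∈ ZZ2 𝓤 K) :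
    ∃ w : G × G → C, w ∈ Z2 𝓤 C ∧ D.Rel2 𝓤 z w := by
  obtain ⟨h1, h2, h3, h4⟩ := (mem_ZZ2_iff 𝓤 K z).1 hz
  have hyLC : IsLC₁ 𝓤 (fun g => D.sec (D.i1 (z.2 g))) :=
    UC.isLC₁_map (fun t => D.sec (D.i1 t)) h4
  have hπy : ∀ g, D.π (D.sec (D.i1 (z.2 g))) = D.i1 (z.2 g) := fun g => D.π_sec _
  have hker : ∀ q, D.π (D.i0 (z.1 q) - δ1 I (fun g => D.sec (D.i1 (z.2 g))) q) = 0 := by
    intro q
    rw [map_sub, D.comm, D.π_δ1]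
    have e1 : K.d (z.1 q) = δ1 K.K1 z.2 q := congrFun h2 q
    rw [e1, D.i1_δ1]
    have e2 : (fun g => D.π (D.sec (D.i1 (z.2 g)))) = fun g => D.i1 (z.2 g) := funext hπy
    rw [e2, sub_self]
  have e : (fun q => D.ι (D.preC _ (hker q)))
      = fun q => D.i0 (z.1 q) - δ1 I (fun g => D.sec (D.i1 (z.2 g))) q :=
    funext fun q => D.ι_preC _ _
  refine ⟨fun q => D.preC _ (hker q), (UC.mem_Z2 𝓤 C _).2 ⟨?_, ?_⟩,
    fun g => D.sec (D.i1 (z.2 g)), hyLC, hπy, fun q => D.ι_preC _ (hker q)⟩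
  · funext q
    apply D.ι_inj
    rw [D.ι_δ2, e, δ2_sub_fun, δ2_δ1_apply, sub_zero, ← D.i0_δ2, h1]
    simp only [Pi.zero_apply, map_zero]
  · apply UC.isLC₂_of_inj D.ι_inj
    rw [e]
    exact UC.isLC₂_sub (UC.isLC₂_map _ h3) (hyLC.δ1 hI)

/-- `Rel2` sends coboundaries to coboundaries. -/
lemma Rel2.mem_B2 (hI : IsSmooth 𝓤 I) {z : T2 K} {w : G × G → C} (hrel : D.Rel2 𝓤 z w)
    (hz : z ∈ BB2 𝓤 K) : w ∈ B2 𝓤 C := by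
  obtain ⟨y, hy, hπ, hι⟩ := hrel
  obtain ⟨cd, hcd, rfl⟩ := (mem_BB2_iff 𝓤 K z).1 hz
  -- `y₀ = i0 ∘ c - δ⁰ s` is another lift
  have hker : ∀ g, D.π (y g - (D.i0 (cd.1 g) - δ0 I (D.sec (D.i1 cd.2)) g)) = 0 := by
    intro g
    rw [map_sub, map_sub, hπ, D.π_δ0, D.π_sec, D.comm, ← D.i1_δ0]
    simp only [D1_apply, Pi.sub_apply, Cx.dco_apply, map_sub]
    abel
  have e : (fun g => D.ι (D.preC _ (hker g)))
      = fun g => y g - (D.i0 (cd.1 g) - δ0 I (D.sec (D.i1 cd.2)) g) :=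
    funext fun g => D.ι_preC _ _
  have heLC : IsLC₁ 𝓤 (fun g => D.preC _ (hker g)) := by
    apply UC.isLC₁_of_inj D.ι_inj
    rw [e]
    exact UC.isLC₁_sub hy (UC.isLC₁_sub (UC.isLC₁_map _ hcd) (isLC₁_δ0 hI _))
  refine (UC.mem_B2 𝓤 C w).2 ⟨fun g => -D.preC _ (hker g), UC.isLC₁_neg heLC, ?_⟩
  funext q
  apply D.ι_inj
  rw [δ1_neg_fun, map_neg, D.ι_δ1, e, hι, δ1_sub_fun, δ1_sub_fun, δ1_δ0_apply, sub_zero]
  simp only [D1_apply, D.i0_δ1]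
  abel

/-- Surjectivity of `Rel2` onto the `p`-torsion classes. -/
lemma Rel2.surj (D : UCData p K C I Q) (hI : IsSmooth 𝓤 I) {w : G × G → C} (hw : w ∈ Z2 𝓤 C)
    (hp : (fun q => (p : ℤ) • w q) ∈ B2 𝓤 C) : ∃ z : T2 K, z ∈ ZZ2 𝓤 K ∧ D.Rel2 𝓤 z w := by
  obtain ⟨hw1, hw2⟩ := (UC.mem_Z2 𝓤 C w).1 hw
  obtain ⟨e, he, hew⟩ := (UC.mem_B2 𝓤 C _).1 hp
  have hyLC : IsLC₁ 𝓤 (fun g => D.divp (-D.ι (e g))) :=
    UC.isLC₁_map (fun t => D.divp (-D.ι t)) he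
  have hpy : ∀ g, (p : ℤ) • D.divp (-D.ι (e g)) = -D.ι (e g) := fun g => D.p_divp _
  have ha : ∀ q, (p : ℤ) • (D.ι (w q) + δ1 I (fun g => D.divp (-D.ι (e g))) q) = 0 := by
    intro q
    rw [smul_add, ← δ1_smul_fun, ← map_zsmul]
    have e1 : (fun g => (p : ℤ) • D.divp (-D.ι (e g))) = fun g => -D.ι (e g) := funext hpy
    have e2 : (p : ℤ) • w q = δ1 C e q := (congrFun hew q).symm
    rw [e1, e2, δ1_neg_fun, D.ι_δ1, add_neg_cancel]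
  have hb : ∀ g, (p : ℤ) • D.π (D.divp (-D.ι (e g))) = 0 := by
    intro g
    rw [← map_zsmul, hpy, map_neg, D.π_ι, neg_zero]
  have ea : (fun q => D.i0 (D.pre0 _ (ha q)))
      = fun q => D.ι (w q) + δ1 I (fun g => D.divp (-D.ι (e g))) q :=
    funext fun q => D.i0_pre0 _ _
  have eb : (fun g => D.i1 (D.pre1 _ (hb g))) = fun g => D.π (D.divp (-D.ι (e g))) :=
    funext fun g => D.i1_pre1 _ _
  refine ⟨(fun q => D.pre0 _ (ha q), fun g => D.pre1 _ (hb g)),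
    (mem_ZZ2_iff 𝓤 K _).2 ⟨?_, ?_, ?_, ?_⟩, fun g => D.divp (-D.ι (e g)), hyLC,
    fun g => (D.i1_pre1 _ (hb g)).symm, fun q => ?_⟩
  · funext q
    apply D.i0_inj
    rw [D.i0_δ2, ea, δ2_add_fun, δ2_δ1_apply, add_zero, ← D.ι_δ2, hw1]
    simp only [Pi.zero_apply, map_zero]
  · funext q
    apply D.i1_inj
    rw [Cx.dco_apply, ← D.comm, D.i0_pre0, D.i1_δ1, eb, map_add, D.π_ι, zero_add, D.π_δ1]
  · apply UC.isLC₂_of_inj D.i0_inj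
    rw [ea]
    exact UC.isLC₂_add (UC.isLC₂_map _ hw2) (hyLC.δ1 hI)
  · apply UC.isLC₁_of_inj D.i1_inj
    rw [eb]
    exact UC.isLC₁_map _ hyLC
  · rw [D.i0_pre0, add_sub_cancel_right]

/-- Existence for `Rel2α`. -/
lemma Rel2α.exists (D : UCData p K C I Q) (hI : IsSmooth 𝓤 I) {c : G → C}
    (hc : c ∈ Z1 𝓤 C) : ∃ z : T2 K, z ∈ ZZ2 𝓤 K ∧ D.Rel2α 𝓤 c z := by
  obtain ⟨hc1, hc2⟩ := (UC.mem_Z1 𝓤 C c).1 hc
  have hyLC : IsLC₁ 𝓤 (fun g => D.divp (D.ι (c g))) :=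
    UC.isLC₁_map (fun t => D.divp (D.ι t)) hc2
  have hpy : ∀ g, (p : ℤ) • D.divp (D.ι (c g)) = D.ι (c g) := fun g => D.p_divp _
  have ha : ∀ q, (p : ℤ) • δ1 I (fun g => D.divp (D.ι (c g))) q = 0 := by
    intro q
    rw [← δ1_smul_fun]
    have e1 : (fun g => (p : ℤ) • D.divp (D.ι (c g))) = fun g => D.ι (c g) := funext hpy
    rw [e1, ← D.ι_δ1, hc1]
    simp only [Pi.zero_apply, map_zero]
  have hb : ∀ g, (p : ℤ) • D.π (D.divp (D.ι (c g))) = 0 := by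
    intro g
    rw [← map_zsmul, hpy, D.π_ι]
  have ea : (fun q => D.i0 (D.pre0 _ (ha q)))
      = fun q => δ1 I (fun g => D.divp (D.ι (c g))) q :=
    funext fun q => D.i0_pre0 _ _
  have eb : (fun g => D.i1 (D.pre1 _ (hb g))) = fun g => D.π (D.divp (D.ι (c g))) :=
    funext fun g => D.i1_pre1 _ _
  refine ⟨(fun q => D.pre0 _ (ha q), fun g => D.pre1 _ (hb g)),
    (mem_ZZ2_iff 𝓤 K _).2 ⟨?_, ?_, ?_, ?_⟩, fun g => D.divp (D.ι (c g)), hyLC, hpy,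
    fun q => D.i0_pre0 _ (ha q), fun g => D.i1_pre1 _ (hb g)⟩
  · funext q
    apply D.i0_inj
    rw [D.i0_δ2, ea, δ2_δ1_apply]
    simp only [Pi.zero_apply, map_zero]
  · funext q
    apply D.i1_inj
    rw [Cx.dco_apply, ← D.comm, D.i0_pre0, D.i1_δ1, eb, D.π_δ1]
  · apply UC.isLC₂_of_inj D.i0_inj
    rw [ea]
    exact hyLC.δ1 hI
  · apply UC.isLC₁_of_inj D.i1_inj
    rw [eb]
    exact UC.isLC₁_map _ hyLC

/-- `Rel2α` sends coboundaries to coboundaries. -/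
lemma Rel2α.mem_BB2 (hI : IsSmooth 𝓤 I) {c : G → C} {z : T2 K} (hrel : D.Rel2α 𝓤 c z)
    (hc : c ∈ B1 C) : z ∈ BB2 𝓤 K := by
  obtain ⟨y, hy, hpy, ha, hb⟩ := hrel
  obtain ⟨x, rfl⟩ := (UC.mem_B1 C c).1 hc
  -- `y₀` with `p y₀ = ι x`
  have ht : ∀ g, (p : ℤ) • (y g - δ0 I (D.divp (D.ι x)) g) = 0 := by
    intro g
    rw [smul_sub, hpy, D.ι_δ0]
    simp only [δ0_apply, smul_sub, ← map_zsmul, D.p_divp, sub_self]
  have hu : (p : ℤ) • D.π (D.divp (D.ι x)) = 0 := by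
    rw [← map_zsmul, D.p_divp, D.π_ι]
  have et : (fun g => D.i0 (D.pre0 _ (ht g))) = fun g => y g - δ0 I (D.divp (D.ι x)) g :=
    funext fun g => D.i0_pre0 _ _
  have htLC : IsLC₁ 𝓤 (fun g => D.pre0 _ (ht g)) := by
    apply UC.isLC₁_of_inj D.i0_inj
    rw [et]
    exact UC.isLC₁_sub hy (isLC₁_δ0 hI _)
  refine (mem_BB2_iff 𝓤 K z).2 ⟨(fun g => D.pre0 _ (ht g), -D.pre1 _ hu), htLC, ?_⟩
  refine Prod.ext ?_ ?_
  · funext q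
    apply D.i0_inj
    rw [ha]
    simp only [D1_apply]
    rw [D.i0_δ1, et, δ1_sub_fun, δ1_δ0_apply, sub_zero]
  · funext g
    apply D.i1_inj
    rw [hb]
    show D.i1 (K.d (D.pre0 _ (ht g)) - δ0 K.K1 (-D.pre1 _ hu) g) = D.π (y g)
    rw [map_sub, ← D.comm, D.i0_pre0, D.i1_δ0, map_neg, D.i1_pre1, map_sub, D.π_δ0]
    simp only [δ0_apply, map_neg]
    abel

/-- `β² ∘ α² = 0` on cocycles. -/
lemma Rel2α.rel2_zero {c : G → C} {z : T2 K} (hrel : D.Rel2α 𝓤 c z) : D.Rel2 𝓤 z 0 := by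
  obtain ⟨y, hy, hpy, ha, hb⟩ := hrel
  refine ⟨y, hy, fun g => (hb g).symm, fun q => ?_⟩
  rw [ha, sub_self, Pi.zero_apply, map_zero]

/-- Exactness at `HH²(K)` on cocycles: a cocycle whose image is a coboundary comes from
`H¹(C)`. -/
lemma Rel2.ker {z : T2 K} {w : G × G → C} (hrel : D.Rel2 𝓤 z w)
    (hw : w ∈ B2 𝓤 C) : ∃ c : G → C, c ∈ Z1 𝓤 C ∧ D.Rel2α 𝓤 c z := by
  obtain ⟨y, hy, hπ, hι⟩ := hrel
  obtain ⟨e, he, rfl⟩ := (UC.mem_B2 𝓤 C w).1 hw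
  have hy'LC : IsLC₁ 𝓤 (fun g => y g + D.ι (e g)) := UC.isLC₁_add hy (UC.isLC₁_map _ he)
  have hδ : ∀ q, δ1 I (fun g => y g + D.ι (e g)) q = D.i0 (z.1 q) := by
    intro q
    rw [δ1_add_fun, ← D.ι_δ1, hι]
    abel
  have hπ' : ∀ g, D.π (y g + D.ι (e g)) = D.i1 (z.2 g) := by
    intro g
    rw [map_add, D.π_ι, add_zero, hπ]
  have hker : ∀ g, D.π ((p : ℤ) • (y g + D.ι (e g))) = 0 := by
    intro g
    rw [map_zsmul, hπ', D.p_i1]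
  have ec : (fun g => D.ι (D.preC _ (hker g))) = fun g => (p : ℤ) • (y g + D.ι (e g)) :=
    funext fun g => D.ι_preC _ _
  refine ⟨fun g => D.preC _ (hker g), (UC.mem_Z1 𝓤 C _).2 ⟨?_, ?_⟩,
    fun g => y g + D.ι (e g), hy'LC,
    fun g => (D.ι_preC _ (hker g)).symm, fun q => (hδ q).symm, fun g => (hπ' g).symm⟩
  · funext q
    apply D.ι_inj
    rw [D.ι_δ1, ec, δ1_smul_fun, hδ, D.p_i0]
    simp only [Pi.zero_apply, map_zero]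
  · apply UC.isLC₁_of_inj D.ι_inj
    rw [ec]
    exact UC.isLC₁_map (fun t => (p : ℤ) • t) hy'LC

/-- Injectivity of `α²` modulo `p` on cocycles. -/
lemma Rel2α.ker (hI : IsSmooth 𝓤 I) {c : G → C} {z : T2 K} (hrel : D.Rel2α 𝓤 c z)
    (hz : z ∈ BB2 𝓤 K) :
    ∃ c' : G → C, c' ∈ Z1 𝓤 C ∧ ∃ x : C, ∀ g, c g = (p : ℤ) • c' g + δ0 C x g := by
  obtain ⟨y, hy, hpy, ha, hb⟩ := hrel
  obtain ⟨cd, hcd, rfl⟩ := (mem_BB2_iff 𝓤 K z).1 hz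
  -- `y'' = y - i0 ∘ t + δ⁰ s`
  have hker : ∀ g, D.π (y g - D.i0 (cd.1 g) + δ0 I (D.sec (D.i1 cd.2)) g) = 0 := by
    intro g
    rw [map_add, map_sub, ← hb, D.π_δ0, D.π_sec, D.comm, ← D.i1_δ0]
    simp only [D1_apply, Pi.sub_apply, Cx.dco_apply, map_sub]
    abel
  have hx : D.π ((p : ℤ) • D.sec (D.i1 cd.2)) = 0 := by
    rw [map_zsmul, D.π_sec, D.p_i1]
  have ec : (fun g => D.ι (D.preC _ (hker g)))
      = fun g => y g - D.i0 (cd.1 g) + δ0 I (D.sec (D.i1 cd.2)) g :=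
    funext fun g => D.ι_preC _ _
  refine ⟨fun g => D.preC _ (hker g), (UC.mem_Z1 𝓤 C _).2 ⟨?_, ?_⟩, -D.preC _ hx, fun g => ?_⟩
  · funext q
    apply D.ι_inj
    rw [D.ι_δ1, ec, δ1_add_fun, δ1_sub_fun, δ1_δ0_apply, add_zero, ← ha]
    simp only [D1_apply, D.i0_δ1, sub_self, Pi.zero_apply, map_zero]
  · apply UC.isLC₁_of_inj D.ι_inj
    rw [ec]
    exact UC.isLC₁_add (UC.isLC₁_sub hy (UC.isLC₁_map _ hcd)) (isLC₁_δ0 hI _)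
  · apply D.ι_inj
    rw [map_add, map_zsmul, D.ι_preC, D.ι_δ0, map_neg, D.ι_preC, smul_add, smul_sub, hpy,
      D.p_i0]
    simp only [δ0_apply, map_neg, smul_sub, map_zsmul]
    abel

end UCData

/-! ### The class maps -/

namespace UC

variable {k G : Type} [CommRing k] [Group G] {𝓤 : Levels G}

lemma H2smπ_eq_iff (A : Rep.{0} k G) (a b : ↥(Z2 𝓤 A)) :
    H2smπ 𝓤 A a = H2smπ 𝓤 A b ↔ (a : G × G → A) - (b : G × G → A) ∈ B2 𝓤 A := by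
  rw [Submodule.mkQ_apply, Submodule.mkQ_apply, Submodule.Quotient.eq]
  rfl

lemma H2smπ_eq_zero_iff (A : Rep.{0} k G) (a : ↥(Z2 𝓤 A)) :
    H2smπ 𝓤 A a = 0 ↔ (a : G × G → A) ∈ B2 𝓤 A := by
  rw [Submodule.mkQ_apply, Submodule.Quotient.mk_eq_zero]
  rfl

lemma H1smπ_eq_iff (A : Rep.{0} k G) (a b : ↥(Z1 𝓤 A)) :
    H1smπ 𝓤 A a = H1smπ 𝓤 A b ↔ (a : G → A) - (b : G → A) ∈ B1 A := by
  rw [Submodule.mkQ_apply, Submodule.mkQ_apply, Submodule.Quotient.eq]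
  rfl

lemma H1smπ_eq_zero_iff (A : Rep.{0} k G) (a : ↥(Z1 𝓤 A)) :
    H1smπ 𝓤 A a = 0 ↔ (a : G → A) ∈ B1 A := by
  rw [Submodule.mkQ_apply, Submodule.Quotient.mk_eq_zero]
  rfl

lemma H1smπ_surjective (A : Rep.{0} k G) : Function.Surjective (H1smπ 𝓤 A) :=
  Submodule.mkQ_surjective _

lemma H2smπ_surjective (A : Rep.{0} k G) : Function.Surjective (H2smπ 𝓤 A) :=
  Submodule.mkQ_surjective _

end UC

namespace UCData

variable {G : Type} [Group G] {p : ℕ} {K : Cx (ZMod p) G} {C I Q : Rep.{0} ℤ G}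
  (D : UCData p K C I Q) {𝓤 : Levels G} (hI : IsSmooth 𝓤 I)

/-- `β²` on cocycles. -/
noncomputable def β2Z : ↥(ZZ2 𝓤 K) →+ H2sm 𝓤 C :=
  AddMonoidHom.mk' (fun z => H2smπ 𝓤 C ⟨(Rel2.exists D hI z.2).choose,
    (Rel2.exists D hI z.2).choose_spec.1⟩) (by
    intro z₁ z₂
    rw [← map_add, UC.H2smπ_eq_iff]
    have h₁ := (Rel2.exists D hI z₁.2).choose_spec.2
    have h₂ := (Rel2.exists D hI z₂.2).choose_spec.2
    have h₃ := (Rel2.exists D hI (z₁ + z₂).2).choose_spec.2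
    have h4 := (h₃.sub h₁).sub h₂
    have h5 := Rel2.mem_B2 hI h4 (by
      rw [show ((z₁ + z₂ : ↥(ZZ2 𝓤 K)) : T2 K) - ↑z₁ - ↑z₂ = 0 from by
        rw [Submodule.coe_add]; abel]
      exact Submodule.zero_mem _)
    change (Rel2.exists D hI (z₁ + z₂).2).choose - ((Rel2.exists D hI z₁.2).choose
      + (Rel2.exists D hI z₂.2).choose) ∈ B2 𝓤 C
    rw [← sub_sub]
    exact h5)

lemma β2Z_eq (z : ↥(ZZ2 𝓤 K)) (w : ↥(Z2 𝓤 C)) (hrel : D.Rel2 𝓤 (z : T2 K) (w : G × G → C)) :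
    D.β2Z hI z = H2smπ 𝓤 C w := by
  show H2smπ 𝓤 C _ = _
  rw [UC.H2smπ_eq_iff]
  have h₁ := (Rel2.exists D hI z.2).choose_spec.2
  refine Rel2.mem_B2 hI (h₁.sub hrel) ?_
  rw [sub_self]
  exact Submodule.zero_mem _

/-- **`β² : HH²(K) → H²(C)`**. -/
noncomputable def β2 : HH2 𝓤 K →+ H2sm 𝓤 C :=
  QuotientAddGroup.lift _ (D.β2Z hI) (by
    intro z hz
    have hz' : (z : T2 K) ∈ BB2 𝓤 K := hz
    rw [AddMonoidHom.mem_ker]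
    have h₁ := (Rel2.exists D hI z.2).choose_spec
    show H2smπ 𝓤 C _ = 0
    rw [UC.H2smπ_eq_zero_iff]
    exact Rel2.mem_B2 hI h₁.2 hz')

/-- Characterisation of `β²` on classes. -/
lemma β2_mk (z : ↥(ZZ2 𝓤 K)) (w : ↥(Z2 𝓤 C)) (hrel : D.Rel2 𝓤 (z : T2 K) (w : G × G → C)) :
    D.β2 hI (HH2π 𝓤 K z) = H2smπ 𝓤 C w :=
  D.β2Z_eq hI z w hrel

/-- `α²` on cocycles. -/
noncomputable def α2Z : ↥(Z1 𝓤 C) →+ HH2 𝓤 K :=
  AddMonoidHom.mk' (fun c => HH2π 𝓤 K ⟨(Rel2α.exists D hI c.2).choose,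
    (Rel2α.exists D hI c.2).choose_spec.1⟩) (by
    intro c₁ c₂
    rw [← map_add, HH2π_eq_iff]
    have h₁ := (Rel2α.exists D hI c₁.2).choose_spec.2
    have h₂ := (Rel2α.exists D hI c₂.2).choose_spec.2
    have h₃ := (Rel2α.exists D hI (c₁ + c₂).2).choose_spec.2
    have h4 := (h₃.sub h₁).sub h₂
    have h5 := Rel2α.mem_BB2 hI h4 (by
      rw [show ((c₁ + c₂ : ↥(Z1 𝓤 C)) : G → C) - ↑c₁ - ↑c₂ = 0 from by
        rw [Submodule.coe_add]; abel]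
      exact Submodule.zero_mem _)
    change (Rel2α.exists D hI (c₁ + c₂).2).choose - ((Rel2α.exists D hI c₁.2).choose
      + (Rel2α.exists D hI c₂.2).choose) ∈ BB2 𝓤 K
    rw [← sub_sub]
    exact h5)

lemma α2Z_eq (c : ↥(Z1 𝓤 C)) (z : ↥(ZZ2 𝓤 K)) (hrel : D.Rel2α 𝓤 (c : G → C) (z : T2 K)) :
    D.α2Z hI c = HH2π 𝓤 K z := by
  show HH2π 𝓤 K _ = _
  rw [HH2π_eq_iff]
  have h₁ := (Rel2α.exists D hI c.2).choose_spec.2
  refine Rel2α.mem_BB2 hI (h₁.sub hrel) ?_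
  rw [sub_self]
  exact Submodule.zero_mem _

/-- **`α² : H¹(C) → HH²(K)`**. -/
noncomputable def α2 : H1sm 𝓤 C →+ HH2 𝓤 K :=
  QuotientAddGroup.lift _ (D.α2Z hI) (by
    intro c hc
    have hc' : (c : G → C) ∈ B1 C := hc
    rw [AddMonoidHom.mem_ker]
    have h₁ := (Rel2α.exists D hI c.2).choose_spec
    show HH2π 𝓤 K _ = 0
    rw [HH2π_eq_zero_iff]
    exact Rel2α.mem_BB2 hI h₁.2 hc')

/-- Characterisation of `α²` on classes. -/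
lemma α2_mk (c : ↥(Z1 𝓤 C)) (z : ↥(ZZ2 𝓤 K)) (hrel : D.Rel2α 𝓤 (c : G → C) (z : T2 K)) :
    D.α2 hI (H1smπ 𝓤 C c) = HH2π 𝓤 K z :=
  D.α2Z_eq hI c z hrel

/-! ### Exactness of `0 → H¹(C)/p → HH²(K) → H²(C)[p] → 0` -/

/-- `HH²(K)` is killed by `p`. -/
lemma p_smul_HH2 (y : HH2 𝓤 K) : (p : ℤ) • y = 0 := UC.p_smul_eq_zero y

/-- `β² ∘ α² = 0`. -/
theorem β2_α2 (x : H1sm 𝓤 C) : D.β2 hI (D.α2 hI x) = 0 := by
  obtain ⟨c, rfl⟩ := UC.H1smπ_surjective C x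
  obtain ⟨z, hz, hrel⟩ := Rel2α.exists D hI c.2
  rw [D.α2_mk hI c ⟨z, hz⟩ hrel, D.β2_mk hI ⟨z, hz⟩ 0 hrel.rel2_zero, map_zero]

/-- Exactness at `HH²(K)`. -/
theorem β2_eq_zero_iff (y : HH2 𝓤 K) : D.β2 hI y = 0 ↔ ∃ x : H1sm 𝓤 C, D.α2 hI x = y := by
  constructor
  · intro h
    obtain ⟨z, rfl⟩ := HH2π_surjective 𝓤 K y
    obtain ⟨w, hw, hrel⟩ := Rel2.exists D hI z.2
    rw [D.β2_mk hI z ⟨w, hw⟩ hrel, UC.H2smπ_eq_zero_iff] at h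
    obtain ⟨c, hc, hα⟩ := hrel.ker h
    exact ⟨H1smπ 𝓤 C ⟨c, hc⟩, D.α2_mk hI ⟨c, hc⟩ z hα⟩
  · rintro ⟨x, rfl⟩
    exact D.β2_α2 hI x

/-- The image of `β²` is the `p`-torsion of `H²(C)`. -/
theorem β2_range (x : H2sm 𝓤 C) : (∃ y : HH2 𝓤 K, D.β2 hI y = x) ↔ (p : ℤ) • x = 0 := by
  constructor
  · rintro ⟨y, rfl⟩
    rw [← map_zsmul, p_smul_HH2, map_zero]
  · intro h
    obtain ⟨w, rfl⟩ := UC.H2smπ_surjective C x
    rw [← map_zsmul, UC.H2smπ_eq_zero_iff] at h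
    have h' : (fun q => (p : ℤ) • (w : G × G → C) q) ∈ B2 𝓤 C := h
    obtain ⟨z, hz, hrel⟩ := Rel2.surj D hI w.2 h'
    exact ⟨HH2π 𝓤 K ⟨z, hz⟩, D.β2_mk hI ⟨z, hz⟩ w hrel⟩

/-- The kernel of `α²` is `p • H¹(C)`. -/
theorem α2_eq_zero_iff (x : H1sm 𝓤 C) :
    D.α2 hI x = 0 ↔ ∃ x' : H1sm 𝓤 C, x = (p : ℤ) • x' := by
  constructor
  · intro h
    obtain ⟨c, rfl⟩ := UC.H1smπ_surjective C x
    obtain ⟨z, hz, hrel⟩ := Rel2α.exists D hI c.2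
    rw [D.α2_mk hI c ⟨z, hz⟩ hrel, HH2π_eq_zero_iff] at h
    obtain ⟨c', hc', x₀, hx⟩ := hrel.ker hI h
    refine ⟨H1smπ 𝓤 C ⟨c', hc'⟩, ?_⟩
    rw [← map_zsmul, UC.H1smπ_eq_iff]
    refine (UC.mem_B1 C _).2 ⟨x₀, funext fun g => ?_⟩
    show δ0 C x₀ g = (c : G → C) g - (p : ℤ) • c' g
    rw [hx g]
    abel
  · rintro ⟨x', rfl⟩
    rw [map_zsmul, p_smul_HH2]

/-- If `H¹(C)` is `p`-divisible (e.g. zero), then `β²` is injective: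
`HH²(K) ≅ H²(C)[p]`. -/
theorem β2_injective (h : ∀ x : H1sm 𝓤 C, ∃ x' : H1sm 𝓤 C, x = (p : ℤ) • x') :
    Function.Injective (D.β2 hI) := by
  rw [injective_iff_map_eq_zero]
  intro y hy
  obtain ⟨x, rfl⟩ := (D.β2_eq_zero_iff hI y).1 hy
  exact (D.α2_eq_zero_iff hI x).2 (h x)

/-- If `H¹(C) = 0` on cocycles (Hilbert 90), then `β²` is injective. -/
theorem β2_injective_of_H1 (h : ∀ c : G → C, c ∈ Z1 𝓤 C → c ∈ B1 C) :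
    Function.Injective (D.β2 hI) := by
  refine D.β2_injective hI fun x => ⟨0, ?_⟩
  obtain ⟨c, rfl⟩ := UC.H1smπ_surjective C x
  rw [zsmul_zero, UC.H1smπ_eq_zero_iff]
  exact h _ c.2

include hI in
/-- Cocycle form of the injectivity of `β²`: if `H¹(C) = 0` and the image of a cocycle `z` of
`K` in `H²(C)` is a coboundary, then `z` is a coboundary. -/
theorem mem_BB2_of_rel2 (h : ∀ c : G → C, c ∈ Z1 𝓤 C → c ∈ B1 C) {z : T2 K}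
    {w : G × G → C} (hrel : D.Rel2 𝓤 z w) (hw : w ∈ B2 𝓤 C) : z ∈ BB2 𝓤 K := by
  obtain ⟨c, hc, hα⟩ := hrel.ker hw
  exact Rel2α.mem_BB2 hI hα (h c hc)

end UCData

end Fermat.Agent.F4
end MergeWrap_F4_UC_Seq2

section MergeWrap_F4_UC_Seq1 -- from F4/UC/Seq1.lean

/-!
# F4 / UC : the universal-coefficient sequence in degree 1

For a datum `D : UCData p K C I Q` with `I` `𝓤`-smooth we construct additive maps

  `D.α1 hI : ↥(UC.Inv C) →+ HH1 𝓤 K`,   `D.β1 hI : HH1 𝓤 K →+ H1sm 𝓤 C`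

and prove the exactness of `0 → C^G/p → HH¹(K) → H¹(C)[p] → 0`:

* `α1_eq_zero_iff` : `α1 x = 0 ↔ x ∈ p • C^G`;
* `β1_eq_zero_iff` : `β1 y = 0 ↔ y ∈ range α1`;
* `β1_range` : `x ∈ range β1 ↔ p • x = 0`.

The maps are characterised on cocycles by the relations `Rel1α` and `Rel1` (`α1_mk`, `β1_mk`).
-/

set_option autoImplicit false
set_option linter.unusedSectionVars false

open CategoryTheory groupCohomology

namespace Fermat.Agent.F4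

namespace UCData

variable {G : Type} [Group G] {p : ℕ} {K : Cx (ZMod p) G} {C I Q : Rep.{0} ℤ G}
  (D : UCData p K C I Q) (𝓤 : Levels G)

/-- The relation defining `β¹ : HH¹(K) → H¹(C)`: lift `b` to `s ∈ I`; then `a - δ⁰ s` takes
values in `C`. -/
def Rel1 (z : T1 K) (c : G → C) : Prop :=
  ∃ s : I, D.π s = D.i1 z.2 ∧ ∀ g, D.ι (c g) = D.i0 (z.1 g) - δ0 I s g

/-- The relation defining `α¹ : C^G → HH¹(K)`: divide `x` by `p` in `I`, `p s = x`;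
then `(δ⁰ s, π s)` is a cocycle of `K`. -/
def Rel1α (x : C) (z : T1 K) : Prop :=
  ∃ s : I, (p : ℤ) • s = D.ι x ∧ (∀ g, D.i0 (z.1 g) = δ0 I s g) ∧ D.i1 z.2 = D.π s

variable {D 𝓤}

lemma δ0_sub_apply (A : Rep.{0} ℤ G) (s₁ s₂ : A) (g : G) :
    δ0 A (s₁ - s₂) g = δ0 A s₁ g - δ0 A s₂ g := by
  rw [map_sub]; rfl

lemma δ0_add_apply (A : Rep.{0} ℤ G) (s₁ s₂ : A) (g : G) :
    δ0 A (s₁ + s₂) g = δ0 A s₁ g + δ0 A s₂ g := by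
  rw [map_add]; rfl

lemma δ0_neg_apply (A : Rep.{0} ℤ G) (s : A) (g : G) : δ0 A (-s) g = -δ0 A s g := by
  rw [map_neg]; rfl

lemma δ0_smul_apply (A : Rep.{0} ℤ G) (n : ℤ) (s : A) (g : G) :
    δ0 A (n • s) g = n • δ0 A s g := by
  simp only [δ0_apply, smul_sub, map_zsmul]

lemma Rel1.sub {z₁ z₂ : T1 K} {c₁ c₂ : G → C} (h₁ : D.Rel1 z₁ c₁) (h₂ : D.Rel1 z₂ c₂) :
    D.Rel1 (z₁ - z₂) (c₁ - c₂) := by
  obtain ⟨s₁, hπ₁, hι₁⟩ := h₁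
  obtain ⟨s₂, hπ₂, hι₂⟩ := h₂
  refine ⟨s₁ - s₂, ?_, fun g => ?_⟩
  · rw [map_sub, hπ₁, hπ₂, Prod.snd_sub, map_sub]
  · rw [Pi.sub_apply, map_sub, hι₁, hι₂, Prod.fst_sub, Pi.sub_apply, map_sub, δ0_sub_apply]
    abel

lemma Rel1α.sub {x₁ x₂ : C} {z₁ z₂ : T1 K} (h₁ : D.Rel1α x₁ z₁) (h₂ : D.Rel1α x₂ z₂) :
    D.Rel1α (x₁ - x₂) (z₁ - z₂) := by
  obtain ⟨s₁, hp₁, ha₁, hb₁⟩ := h₁
  obtain ⟨s₂, hp₂, ha₂, hb₂⟩ := h₂
  refine ⟨s₁ - s₂, ?_, fun g => ?_, ?_⟩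
  · rw [smul_sub, hp₁, hp₂, map_sub]
  · rw [Prod.fst_sub, Pi.sub_apply, map_sub, ha₁, ha₂, δ0_sub_apply]
  · rw [Prod.snd_sub, map_sub, hb₁, hb₂, map_sub]

/-- Existence for `Rel1`. -/
lemma Rel1.exists (D : UCData p K C I Q) (hI : IsSmooth 𝓤 I) {z : T1 K} (hz : z ∈ ZZ1 𝓤 K) :
    ∃ c : G → C, c ∈ Z1 𝓤 C ∧ D.Rel1 z c := by
  obtain ⟨h1, h2, h3⟩ := (mem_ZZ1_iff 𝓤 K z).1 hz
  have hker : ∀ g, D.π (D.i0 (z.1 g) - δ0 I (D.sec (D.i1 z.2)) g) = 0 := by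
    intro g
    rw [map_sub, D.comm, D.π_δ0, D.π_sec]
    have e1 : K.d (z.1 g) = δ0 K.K1 z.2 g := congrFun h2 g
    rw [e1, D.i1_δ0, sub_self]
  have e : (fun g => D.ι (D.preC _ (hker g)))
      = fun g => D.i0 (z.1 g) - δ0 I (D.sec (D.i1 z.2)) g :=
    funext fun g => D.ι_preC _ _
  refine ⟨fun g => D.preC _ (hker g), (UC.mem_Z1 𝓤 C _).2 ⟨?_, ?_⟩,
    D.sec (D.i1 z.2), D.π_sec _, fun g => D.ι_preC _ (hker g)⟩
  · funext q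
    apply D.ι_inj
    rw [D.ι_δ1, e, δ1_sub_fun, δ1_δ0_apply, sub_zero, ← D.i0_δ1, h1]
    simp only [Pi.zero_apply, map_zero]
  · apply UC.isLC₁_of_inj D.ι_inj
    rw [e]
    exact UC.isLC₁_sub (UC.isLC₁_map _ h3) (isLC₁_δ0 hI _)

/-- `Rel1` sends coboundaries to coboundaries. -/
lemma Rel1.mem_B1 {z : T1 K} {c : G → C} (hrel : D.Rel1 z c) (hz : z ∈ BB1 K) : c ∈ B1 C := by
  obtain ⟨s, hπ, hι⟩ := hrel
  obtain ⟨x₀, rfl⟩ := (mem_BB1_iff K z).1 hz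
  have hker : D.π (s - D.i0 x₀) = 0 := by
    rw [map_sub, hπ, D.comm]
    simp only [D0_apply, sub_self]
  refine (UC.mem_B1 C c).2 ⟨-D.preC _ hker, funext fun g => ?_⟩
  apply D.ι_inj
  rw [hι, D.ι_δ0, map_neg, D.ι_preC, δ0_neg_apply, δ0_sub_apply]
  simp only [D0_apply, D.i0_δ0]
  abel

/-- Surjectivity of `Rel1` onto the `p`-torsion classes. -/
lemma Rel1.surj (D : UCData p K C I Q) (hI : IsSmooth 𝓤 I) {c : G → C} (hc : c ∈ Z1 𝓤 C)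
    (hp : (fun g => (p : ℤ) • c g) ∈ B1 C) : ∃ z : T1 K, z ∈ ZZ1 𝓤 K ∧ D.Rel1 z c := by
  obtain ⟨hc1, hc2⟩ := (UC.mem_Z1 𝓤 C c).1 hc
  obtain ⟨x, hx⟩ := (UC.mem_B1 C _).1 hp
  have hps : (p : ℤ) • D.divp (-D.ι x) = -D.ι x := D.p_divp _
  have ha : ∀ g, (p : ℤ) • (D.ι (c g) + δ0 I (D.divp (-D.ι x)) g) = 0 := by
    intro g
    have e2 : (p : ℤ) • c g = δ0 C x g := (congrFun hx g).symm
    rw [smul_add, ← δ0_smul_apply, hps, ← map_zsmul, e2, δ0_neg_apply, D.ι_δ0, add_neg_cancel]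
  have hb : (p : ℤ) • D.π (D.divp (-D.ι x)) = 0 := by
    rw [← map_zsmul, hps, map_neg, D.π_ι, neg_zero]
  have ea : (fun g => D.i0 (D.pre0 _ (ha g)))
      = fun g => D.ι (c g) + δ0 I (D.divp (-D.ι x)) g :=
    funext fun g => D.i0_pre0 _ _
  refine ⟨(fun g => D.pre0 _ (ha g), D.pre1 _ hb),
    (mem_ZZ1_iff 𝓤 K _).2 ⟨?_, ?_, ?_⟩, D.divp (-D.ι x), (D.i1_pre1 _ hb).symm, fun g => ?_⟩
  · funext q
    apply D.i0_inj
    rw [D.i0_δ1, ea, δ1_add_fun, δ1_δ0_apply, add_zero, ← D.ι_δ1, hc1]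
    simp only [Pi.zero_apply, map_zero]
  · funext g
    apply D.i1_inj
    rw [Cx.dco_apply, ← D.comm, D.i0_pre0, D.i1_δ0, D.i1_pre1, map_add, D.π_ι, zero_add,
      D.π_δ0]
  · apply UC.isLC₁_of_inj D.i0_inj
    rw [ea]
    exact UC.isLC₁_add (UC.isLC₁_map _ hc2) (isLC₁_δ0 hI _)
  · rw [D.i0_pre0, add_sub_cancel_right]

/-- Existence for `Rel1α`. -/
lemma Rel1α.exists (D : UCData p K C I Q) (hI : IsSmooth 𝓤 I) {x : C}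
    (hx : ∀ g, C.ρ g x = x) : ∃ z : T1 K, z ∈ ZZ1 𝓤 K ∧ D.Rel1α x z := by
  have hps : (p : ℤ) • D.divp (D.ι x) = D.ι x := D.p_divp _
  have ha : ∀ g, (p : ℤ) • δ0 I (D.divp (D.ι x)) g = 0 := by
    intro g
    rw [← δ0_smul_apply, hps, ← D.ι_δ0, δ0_apply, hx g, sub_self, map_zero]
  have hb : (p : ℤ) • D.π (D.divp (D.ι x)) = 0 := by
    rw [← map_zsmul, hps, D.π_ι]
  have ea : (fun g => D.i0 (D.pre0 _ (ha g))) = fun g => δ0 I (D.divp (D.ι x)) g :=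
    funext fun g => D.i0_pre0 _ _
  refine ⟨(fun g => D.pre0 _ (ha g), D.pre1 _ hb),
    (mem_ZZ1_iff 𝓤 K _).2 ⟨?_, ?_, ?_⟩, D.divp (D.ι x), hps, fun g => D.i0_pre0 _ (ha g),
    D.i1_pre1 _ hb⟩
  · funext q
    apply D.i0_inj
    rw [D.i0_δ1, ea, δ1_δ0_apply]
    simp only [Pi.zero_apply, map_zero]
  · funext g
    apply D.i1_inj
    rw [Cx.dco_apply, ← D.comm, D.i0_pre0, D.i1_δ0, D.i1_pre1, D.π_δ0]
  · apply UC.isLC₁_of_inj D.i0_inj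
    rw [ea]
    exact isLC₁_δ0 hI _

/-- `Rel1α` sends `0` to coboundaries. -/
lemma Rel1α.mem_BB1 {z : T1 K} (hrel : D.Rel1α 0 z) : z ∈ BB1 K := by
  obtain ⟨s, hps, ha, hb⟩ := hrel
  rw [map_zero] at hps
  refine (mem_BB1_iff K z).2 ⟨D.pre0 s hps, Prod.ext ?_ ?_⟩
  · funext g
    apply D.i0_inj
    rw [ha]
    simp only [D0_apply]
    rw [D.i0_δ0, D.i0_pre0]
  · apply D.i1_inj
    rw [hb]
    simp only [D0_apply]
    rw [← D.comm, D.i0_pre0]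

/-- `β¹ ∘ α¹ = 0` on cocycles. -/
lemma Rel1α.rel1_zero {x : C} {z : T1 K} (hrel : D.Rel1α x z) : D.Rel1 z 0 := by
  obtain ⟨s, hps, ha, hb⟩ := hrel
  refine ⟨s, hb.symm, fun g => ?_⟩
  rw [ha, sub_self, Pi.zero_apply, map_zero]

/-- Exactness at `HH¹(K)` on cocycles. -/
lemma Rel1.ker {z : T1 K} {c : G → C} (hrel : D.Rel1 z c) (hc : c ∈ B1 C) :
    ∃ x : C, (∀ g, C.ρ g x = x) ∧ D.Rel1α x z := by
  obtain ⟨s, hπ, hι⟩ := hrel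
  obtain ⟨e, rfl⟩ := (UC.mem_B1 C c).1 hc
  have hδ : ∀ g, δ0 I (s + D.ι e) g = D.i0 (z.1 g) := by
    intro g
    rw [δ0_add_apply, ← D.ι_δ0, hι]
    abel
  have hπ' : D.π (s + D.ι e) = D.i1 z.2 := by
    rw [map_add, D.π_ι, add_zero, hπ]
  have hker : D.π ((p : ℤ) • (s + D.ι e)) = 0 := by
    rw [map_zsmul, hπ', D.p_i1]
  refine ⟨D.preC _ hker, fun g => ?_, s + D.ι e, (D.ι_preC _ hker).symm,
    fun g => (hδ g).symm, hπ'.symm⟩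
  apply D.ι_inj
  have h0 : D.ι (δ0 C (D.preC _ hker) g) = 0 := by
    rw [D.ι_δ0, D.ι_preC, δ0_smul_apply, hδ, D.p_i0]
  rw [δ0_apply, map_sub, sub_eq_zero] at h0
  exact h0

/-- Injectivity of `α¹` modulo `p` on cocycles. -/
lemma Rel1α.ker {x : C} {z : T1 K} (hrel : D.Rel1α x z) (hz : z ∈ BB1 K) :
    ∃ x' : C, (∀ g, C.ρ g x' = x') ∧ x = (p : ℤ) • x' := by
  obtain ⟨s, hps, ha, hb⟩ := hrel
  obtain ⟨t, rfl⟩ := (mem_BB1_iff K z).1 hz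
  have hker : D.π (s - D.i0 t) = 0 := by
    rw [map_sub, ← hb, D.comm]
    simp only [D0_apply, sub_self]
  have hδ : ∀ g, δ0 I (s - D.i0 t) g = 0 := by
    intro g
    rw [δ0_sub_apply, ← ha]
    simp only [D0_apply, D.i0_δ0, sub_self]
  refine ⟨D.preC _ hker, fun g => ?_, ?_⟩
  · apply D.ι_inj
    have h0 : D.ι (δ0 C (D.preC _ hker) g) = 0 := by
      rw [D.ι_δ0, D.ι_preC, hδ]
    rw [δ0_apply, map_sub, sub_eq_zero] at h0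
    exact h0
  · apply D.ι_inj
    rw [map_zsmul, D.ι_preC, smul_sub, hps, D.p_i0, sub_zero]

end UCData

/-! ### The class maps -/

namespace UC

/-- The invariants `A^G` as an additive subgroup. -/
def Inv {k G : Type} [CommRing k] [Group G] (A : Rep.{0} k G) : AddSubgroup A where
  carrier := {x | ∀ g : G, A.ρ g x = x}
  zero_mem' := fun g => map_zero _
  add_mem' := fun {a b} ha hb g => by rw [map_add, ha g, hb g]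
  neg_mem' := fun {a} ha g => by rw [map_neg, ha g]

lemma mem_Inv {k G : Type} [CommRing k] [Group G] (A : Rep.{0} k G) (x : A) :
    x ∈ Inv A ↔ ∀ g : G, A.ρ g x = x := Iff.rfl

end UC

namespace UCData

variable {G : Type} [Group G] {p : ℕ} {K : Cx (ZMod p) G} {C I Q : Rep.{0} ℤ G}
  (D : UCData p K C I Q) {𝓤 : Levels G} (hI : IsSmooth 𝓤 I)

/-- `β¹` on cocycles. -/
noncomputable def β1Z : ↥(ZZ1 𝓤 K) →+ H1sm 𝓤 C :=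
  AddMonoidHom.mk' (fun z => H1smπ 𝓤 C ⟨(Rel1.exists D hI z.2).choose,
    (Rel1.exists D hI z.2).choose_spec.1⟩) (by
    intro z₁ z₂
    rw [← map_add, UC.H1smπ_eq_iff]
    have h₁ := (Rel1.exists D hI z₁.2).choose_spec.2
    have h₂ := (Rel1.exists D hI z₂.2).choose_spec.2
    have h₃ := (Rel1.exists D hI (z₁ + z₂).2).choose_spec.2
    have h4 := (h₃.sub h₁).sub h₂
    have h5 := Rel1.mem_B1 h4 (by
      rw [show ((z₁ + z₂ : ↥(ZZ1 𝓤 K)) : T1 K) - ↑z₁ - ↑z₂ = 0 from by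
        rw [Submodule.coe_add]; abel]
      exact Submodule.zero_mem _)
    change (Rel1.exists D hI (z₁ + z₂).2).choose - ((Rel1.exists D hI z₁.2).choose
      + (Rel1.exists D hI z₂.2).choose) ∈ B1 C
    rw [← sub_sub]
    exact h5)

lemma β1Z_eq (z : ↥(ZZ1 𝓤 K)) (c : ↥(Z1 𝓤 C)) (hrel : D.Rel1 (z : T1 K) (c : G → C)) :
    D.β1Z hI z = H1smπ 𝓤 C c := by
  show H1smπ 𝓤 C _ = _
  rw [UC.H1smπ_eq_iff]
  have h₁ := (Rel1.exists D hI z.2).choose_spec.2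
  refine Rel1.mem_B1 (h₁.sub hrel) ?_
  rw [sub_self]
  exact Submodule.zero_mem _

/-- **`β¹ : HH¹(K) → H¹(C)`**. -/
noncomputable def β1 : HH1 𝓤 K →+ H1sm 𝓤 C :=
  QuotientAddGroup.lift _ (D.β1Z hI) (by
    intro z hz
    have hz' : (z : T1 K) ∈ BB1 K := hz
    rw [AddMonoidHom.mem_ker]
    have h₁ := (Rel1.exists D hI z.2).choose_spec
    show H1smπ 𝓤 C _ = 0
    rw [UC.H1smπ_eq_zero_iff]
    exact Rel1.mem_B1 h₁.2 hz')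

/-- Characterisation of `β¹` on classes. -/
lemma β1_mk (z : ↥(ZZ1 𝓤 K)) (c : ↥(Z1 𝓤 C)) (hrel : D.Rel1 (z : T1 K) (c : G → C)) :
    D.β1 hI (HH1π 𝓤 K z) = H1smπ 𝓤 C c :=
  D.β1Z_eq hI z c hrel

/-- **`α¹ : C^G → HH¹(K)`**. -/
noncomputable def α1 : ↥(UC.Inv C) →+ HH1 𝓤 K :=
  AddMonoidHom.mk' (fun x => HH1π 𝓤 K ⟨(Rel1α.exists D hI x.2).choose,
    (Rel1α.exists D hI x.2).choose_spec.1⟩) (by
    intro x₁ x₂
    rw [← map_add, HH1π_eq_iff]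
    have h₁ := (Rel1α.exists D hI x₁.2).choose_spec.2
    have h₂ := (Rel1α.exists D hI x₂.2).choose_spec.2
    have h₃ := (Rel1α.exists D hI (x₁ + x₂).2).choose_spec.2
    have h4 := (h₃.sub h₁).sub h₂
    rw [show ((x₁ + x₂ : ↥(UC.Inv C)) : C) - ↑x₁ - ↑x₂ = 0 from by
        rw [AddSubgroup.coe_add]; abel] at h4
    have h5 := Rel1α.mem_BB1 h4
    change (Rel1α.exists D hI (x₁ + x₂).2).choose - ((Rel1α.exists D hI x₁.2).choose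
      + (Rel1α.exists D hI x₂.2).choose) ∈ BB1 K
    rw [← sub_sub]
    exact h5)

/-- Characterisation of `α¹`. -/
lemma α1_mk (x : ↥(UC.Inv C)) (z : ↥(ZZ1 𝓤 K)) (hrel : D.Rel1α (x : C) (z : T1 K)) :
    D.α1 hI x = HH1π 𝓤 K z := by
  show HH1π 𝓤 K _ = _
  rw [HH1π_eq_iff]
  have h₁ := (Rel1α.exists D hI x.2).choose_spec.2
  have h2 := h₁.sub hrel
  rw [sub_self] at h2
  exact Rel1α.mem_BB1 h2

/-! ### Exactness of `0 → C^G/p → HH¹(K) → H¹(C)[p] → 0` -/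

/-- `HH¹(K)` is killed by `p`. -/
lemma p_smul_HH1 (y : HH1 𝓤 K) : (p : ℤ) • y = 0 := UC.p_smul_eq_zero y

/-- `β¹ ∘ α¹ = 0`. -/
theorem β1_α1 (x : ↥(UC.Inv C)) : D.β1 hI (D.α1 hI x) = 0 := by
  obtain ⟨z, hz, hrel⟩ := Rel1α.exists D hI x.2
  rw [D.α1_mk hI x ⟨z, hz⟩ hrel, D.β1_mk hI ⟨z, hz⟩ 0 hrel.rel1_zero, map_zero]

/-- Exactness at `HH¹(K)`. -/
theorem β1_eq_zero_iff (y : HH1 𝓤 K) :
    D.β1 hI y = 0 ↔ ∃ x : ↥(UC.Inv C), D.α1 hI x = y := by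
  constructor
  · intro h
    obtain ⟨z, rfl⟩ := HH1π_surjective 𝓤 K y
    obtain ⟨c, hc, hrel⟩ := Rel1.exists D hI z.2
    rw [D.β1_mk hI z ⟨c, hc⟩ hrel, UC.H1smπ_eq_zero_iff] at h
    obtain ⟨x, hx, hα⟩ := hrel.ker h
    exact ⟨⟨x, hx⟩, D.α1_mk hI ⟨x, hx⟩ z hα⟩
  · rintro ⟨x, rfl⟩
    exact D.β1_α1 hI x

/-- The image of `β¹` is the `p`-torsion of `H¹(C)`. -/
theorem β1_range (x : H1sm 𝓤 C) : (∃ y : HH1 𝓤 K, D.β1 hI y = x) ↔ (p : ℤ) • x = 0 := by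
  constructor
  · rintro ⟨y, rfl⟩
    rw [← map_zsmul, p_smul_HH1, map_zero]
  · intro h
    obtain ⟨c, rfl⟩ := UC.H1smπ_surjective C x
    rw [← map_zsmul, UC.H1smπ_eq_zero_iff] at h
    have h' : (fun g => (p : ℤ) • (c : G → C) g) ∈ B1 C := h
    obtain ⟨z, hz, hrel⟩ := Rel1.surj D hI c.2 h'
    exact ⟨HH1π 𝓤 K ⟨z, hz⟩, D.β1_mk hI ⟨z, hz⟩ c hrel⟩

/-- The kernel of `α¹` is `p • C^G`. -/
theorem α1_eq_zero_iff (x : ↥(UC.Inv C)) :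
    D.α1 hI x = 0 ↔ ∃ x' : ↥(UC.Inv C), x = (p : ℤ) • x' := by
  constructor
  · intro h
    obtain ⟨z, hz, hrel⟩ := Rel1α.exists D hI x.2
    rw [D.α1_mk hI x ⟨z, hz⟩ hrel, HH1π_eq_zero_iff] at h
    obtain ⟨x', hx', hxx'⟩ := hrel.ker h
    refine ⟨⟨x', hx'⟩, Subtype.ext ?_⟩
    rw [hxx']
    rfl
  · rintro ⟨x', rfl⟩
    rw [map_zsmul, p_smul_HH1]

/-- If `H¹(C)` has no `p`-torsion (e.g. is zero), then `α¹` is surjective: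
`C^G/p ≅ HH¹(K)`. -/
theorem α1_surjective (h : ∀ x : H1sm 𝓤 C, (p : ℤ) • x = 0 → x = 0) :
    Function.Surjective (D.α1 hI) := by
  intro y
  refine (D.β1_eq_zero_iff hI y).1 (h _ ?_)
  rw [← map_zsmul, p_smul_HH1, map_zero]

/-- If `H¹(C) = 0` on cocycles (Hilbert 90), then `α¹` is surjective. -/
theorem α1_surjective_of_H1 (h : ∀ c : G → C, c ∈ Z1 𝓤 C → c ∈ B1 C) :
    Function.Surjective (D.α1 hI) := by
  refine D.α1_surjective hI fun x _ => ?_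
  obtain ⟨c, rfl⟩ := UC.H1smπ_surjective C x
  rw [UC.H1smπ_eq_zero_iff]
  exact h _ c.2

end UCData

end Fermat.Agent.F4
end MergeWrap_F4_UC_Seq1
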